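import Fermat.Agent.S22.Hecke
import Fermat.Prelude.Thm_CongruenceSubgroup_one_mem_strictPeriods_Gamma0

set_option autoImplicit false

open UpperHalfPlane Complex Filter Topology Function Matrix.SpecialLinearGroup CongruenceSubgroup
open scoped Manifold MatrixGroups ModularForm

noncomputable section

namespace Fermat.Agent.EichlerInt

variable (n : ℕ)

/-- if the periods vanish for integral `u`, they vanish for all `u`. -/
lemma PerG_eq_zero_of_int (f : Good (n + 2)) (ε δ : SL(2, ℤ))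
    (h : ∀ u ∈ IntVec, PerG n u ε δ f = 0) (u : Fin 2 → ℂ) : PerG n u ε δ f = 0 := by
  let P : MvPolynomial (Fin 2) ℂ := Epoly n (ε • UpperHalfPlane.I) (sl (n + 2) δ f)
  let Q : MvPolynomial (Fin 2) ℂ := Epoly n UpperHalfPlane.I (sl (n + 2) (δ * ε) f)
  let v : Fin 2 → MvPolynomial (Fin 2) ℂ :=
    ![MvPolynomial.X 0 * MvPolynomial.C ((slR ε 0 0 : ℝ) : ℂ) +
        MvPolynomial.X 1 * MvPolynomial.C ((slR ε 1 0 : ℝ) : ℂ),
      MvPolynomial.X 0 * MvPolynomial.C ((slR ε 0 1 : ℝ) : ℂ) +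
        MvPolynomial.X 1 * MvPolynomial.C ((slR ε 1 1 : ℝ) : ℂ)]
  have key : ∀ w : Fin 2 → ℂ, MvPolynomial.eval w (P - MvPolynomial.bind₁ v Q) =
      PerG n w ε δ f := by
    intro w
    rw [map_sub, PerG_apply, eval_Epoly]
    congr 1
    have e1 : MvPolynomial.eval w (MvPolynomial.bind₁ v Q) =
        MvPolynomial.eval (fun i => MvPolynomial.eval w (v i)) Q := by
      have := MvPolynomial.eval₂Hom_bind₁ (RingHom.id ℂ) w v Q
      exact this
    rw [e1]
    have e2 : (fun i => MvPolynomial.eval w (v i)) = vm w (slR ε) := by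
      ext i
      fin_cases i <;> simp [v, vm]
    rw [e2, eval_Epoly]
  have hzero : P - MvPolynomial.bind₁ v Q = 0 := by
    refine MvPolynomial.funext_set (fun _ => Set.range (fun m : ℤ => (m : ℂ)))
      (fun _ => Set.infinite_range_of_injective Int.cast_injective) (fun x hx => ?_)
    rw [key, map_zero]
    have : ∀ i, ∃ m : ℤ, (m : ℂ) = x i := fun i => hx i (Set.mem_univ i)
    choose m hm using this
    exact h x ⟨m, by ext i; exact (hm i).symm⟩
  rw [← key u, hzero, map_zero]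

/-- the Eichler integral -/
def Gint (f : cuspLike) : cuspLike := (prim ^ (n + 1)) f

lemma vm_one_neg (ε : SL(2, ℤ)) (τ : ℍ) :
    vm ![1, -((ε • τ : ℍ) : ℂ)] (slR ε) = (denom ε τ)⁻¹ • ![1, -(τ : ℂ)] := by
  have hd : denom ε τ ≠ 0 := denom_ne_zero _ τ
  have hnum : ((ε • τ : ℍ) : ℂ) = num ε τ / denom ε τ := coe_smul_of_det_pos
    (by rw [det_mapGL_val]; exact one_pos) τ
  have hdet := ε.det_coe
  rw [Matrix.det_fin_two] at hdet
  have hdetC : ((ε 0 0 : ℤ) : ℂ) * (ε 1 1 : ℤ) - (ε 0 1 : ℤ) * (ε 1 0 : ℤ) = 1 := by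
    exact_mod_cast congrArg (Int.cast : ℤ → ℂ) hdet
  have hden : denom ε τ = (ε 1 0 : ℤ) * (τ : ℂ) + (ε 1 1 : ℤ) := by
    rw [ModularGroup.denom_apply]
  have hnu : num ε τ = (ε 0 0 : ℤ) * (τ : ℂ) + (ε 0 1 : ℤ) := by
    simp [num]
  ext i
  fin_cases i
  · simp only [vm, slR_eq, Matrix.map_apply, Fin.zero_eta, Matrix.cons_val_zero,
      Matrix.cons_val_one, Pi.smul_apply, smul_eq_mul, mul_one, one_mul, Complex.ofReal_intCast]
    rw [hnum]
    field_simp
    rw [hden, hnu]
    linear_combination hdetC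
  · simp only [vm, slR_eq, Matrix.map_apply, Fin.mk_one, Matrix.cons_val_zero,
      Matrix.cons_val_one, Pi.smul_apply, smul_eq_mul, mul_one, one_mul, Complex.ofReal_intCast]
    rw [hnum]
    field_simp
    rw [hden, hnu]
    linear_combination (-(τ : ℂ)) * hdetC

/-- equivariance of the Eichler integral when all periods vanish -/
lemma Gint_slash (f : Good (n + 2)) (h : ∀ u ∈ IntVec, ∀ ε : SL(2, ℤ), PerG n u ε 1 f = 0)
    (ε : SL(2, ℤ)) :
    (Gint n (sl (n + 2) 1 f) : ℍ → ℂ) ∣[(-n : ℤ)] ε = (Gint n (sl (n + 2) ε f) : ℍ → ℂ) := by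
  ext τ
  have h1 := PerG_eq_zero_of_int n f ε 1 (fun u hu => h u hu ε) ![1, -((ε • τ : ℍ) : ℂ)]
  rw [← PerG_eq n _ ε 1 f τ, sub_eq_zero, E_one_neg, vm_one_neg, E_smul_left, E_one_neg,
    one_mul] at h1
  have hd : denom ε τ ≠ 0 := denom_ne_zero _ τ
  rw [ModularForm.SL_slash_apply, neg_neg, zpow_natCast]
  have hc : ((-1 : ℂ) ^ n * (n.factorial : ℂ)) ≠ 0 :=
    mul_ne_zero (pow_ne_zero _ (by norm_num)) (by exact_mod_cast n.factorial_ne_zero)
  apply mul_left_cancel₀ hc
  unfold Gint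
  rw [← mul_assoc, h1]
  rw [inv_pow]
  field_simp

section sep

variable (N : ℕ) [NeZero N]

lemma sl_eq_of_mem {k : ℤ} {γ : SL(2, ℤ)} (hγ : γ ∈ Gamma0 N) (f : CuspForm (Gamma0 N) k) :
    sl k γ (toGood N k f) = sl k 1 (toGood N k f) := by
  have := LinearMap.congr_fun (sl_toGood_mul (k := k) hγ 1) f
  rwa [mul_one] at this

/-- the Eichler integral as a modular form of weight `-n` -/
def Gform (f : CuspForm (Gamma0 N) (n + 2)) (h : ∀ φ ∈ PerLat N n, φ f = 0) :
    ModularForm (Gamma0 N) (-n) :=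
  have hz : ∀ u ∈ IntVec, ∀ ε : SL(2, ℤ), PerG n u ε 1 (toGood N (n + 2) f) = 0 :=
    fun u hu ε => h _ (Submodule.subset_span ⟨u, hu, ε, rfl⟩)
  { toFun := (Gint n (sl (n + 2) 1 (toGood N (n + 2) f)) : ℍ → ℂ)
    slash_action_eq' := by
      rintro _ ⟨γ, hγ, rfl⟩
      have h1 := Gint_slash n (toGood N (n + 2) f) hz γ
      rw [sl_eq_of_mem N hγ] at h1
      exact h1
    holo' := (Gint n (sl (n + 2) 1 (toGood N (n + 2) f))).2.hol
    bdd_at_cusps' := by
      intro c hc
      have hc' : IsCusp c 𝒮ℒ := (Subgroup.IsArithmetic.isCusp_iff_isCusp_SL2Z _).mp hc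
      rw [OnePoint.isBoundedAt_iff_forall_SL2Z hc']
      intro γ _
      have h1 := Gint_slash n (toGood N (n + 2) f) hz γ
      have h2 : IsBoundedAtImInfty
          ((Gint n (sl (n + 2) 1 (toGood N (n + 2) f)) : ℍ → ℂ) ∣[(-n : ℤ)] γ) := by
        rw [h1]
        exact (Gint n (sl (n + 2) γ (toGood N (n + 2) f))).2.zero.isBoundedAtImInfty
      exact h2 }

lemma PerLat_separating (f : CuspForm (Gamma0 N) (n + 2)) (h : ∀ φ ∈ PerLat N n, φ f = 0) :
    f = 0 := by
  have hG : Gform n N f h = 0 := by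
    apply ModularForm.sturm_bound_Gamma0
    intro m hm
    have hm0 : m = 0 := by
      have e : (-(n : ℤ) * (Gamma0 N).index).toNat = 0 := by
        rw [Int.toNat_eq_zero]
        have : (0 : ℤ) ≤ (n : ℤ) * ((Gamma0 N).index : ℤ) := by positivity
        linarith
      rw [e] at hm
      omega
    subst hm0
    have hz := (Gint n (sl (n + 2) 1 (toGood N (n + 2) f))).2.zero
    have h1 : (1 : ℝ) ∈ (Gamma0 N : Subgroup (GL (Fin 2) ℝ)).strictPeriods :=
      CongruenceSubgroup.one_mem_strictPeriods_Gamma0 N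
    have hper := SlashInvariantFormClass.periodic_comp_ofComplex (Gform n N f h) h1
    rw [qExpansion_coeff_zero one_pos
      (ModularFormClass.analyticAt_cuspFunction_zero (Gform n N f h) one_pos h1) hper]
    exact hz.valueAtInfty_eq_zero
  have h2 : Gint n (sl (n + 2) 1 (toGood N (n + 2) f)) = 0 := by
    apply Subtype.ext
    exact congrArg (fun g : ModularForm (Gamma0 N) (-n) => (g : ℍ → ℂ)) hG
  have hinj : Function.Injective ((prim ^ (n + 1) : cuspLike →ₗ[ℂ] cuspLike)) := by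
    rw [Module.End.coe_pow]
    exact prim_injective.iterate _
  have h3 : sl (n + 2) 1 (toGood N (n + 2) f) = 0 := by
    apply hinj
    rw [map_zero]
    exact h2
  apply DFunLike.coe_injective
  have h4 := congrArg (fun g : cuspLike => (g : ℍ → ℂ)) h3
  simp only [coe_sl, coe_toGood, SlashAction.slash_one] at h4
  exact h4

theorem moduleFinite_of_weight_ge_two (S : Set ℕ) :
    Module.Finite ℤ (CuspForm.heckeAlgebra N (n + 2) S) := by
  have hfg : Module.Finite ℤ (PerLat N n) := Module.Finite.iff_fg.mpr (PerLat_fg N n)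
  have hnoeth : IsNoetherian ℤ (PerLat N n) := isNoetherian_of_isNoetherianRing_of_finite ℤ _
  obtain ⟨s, hs⟩ := hfg.fg_top
  let Φ : CuspForm.heckeAlgebra N (n + 2) S →ₗ[ℤ] (s → PerLat N n) :=
    { toFun := fun t i => ⟨(i : PerLat N n).1 ∘ₗ t.1, PerLat_stable n N S t.2 _ (i : PerLat N n).2⟩
      map_add' := fun a b => by
        ext i : 2
        exact LinearMap.comp_add _ _ _
      map_smul' := fun c a => by
        ext i x
        show (i : PerLat N n).1 ((c • a.1) x) = c • (i : PerLat N n).1 (a.1 x)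
        rw [LinearMap.smul_apply, map_zsmul] }
  have hinj : Function.Injective Φ := by
    rw [← LinearMap.ker_eq_bot, LinearMap.ker_eq_bot']
    intro t ht
    apply Subtype.ext
    refine LinearMap.ext fun f => ?_
    show t.1 f = 0
    apply PerLat_separating n N
    have key : ∀ φ : PerLat N n, φ.1 ∘ₗ t.1 = 0 := by
      intro φ
      have hφ : φ ∈ Submodule.span ℤ (s : Set (PerLat N n)) := by rw [hs]; trivial
      induction hφ using Submodule.span_induction with
      | mem x hx =>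
        have := congrFun ht ⟨x, hx⟩
        exact congrArg Subtype.val this
      | zero => exact LinearMap.zero_comp _
      | add x y _ _ hx hy =>
        show (x.1 + y.1) ∘ₗ t.1 = 0
        rw [LinearMap.add_comp, hx, hy, add_zero]
      | smul a x _ hx =>
        show (a • x.1) ∘ₗ t.1 = 0
        rw [LinearMap.smul_comp, hx, smul_zero]
    intro φ hφ
    exact LinearMap.congr_fun (key ⟨φ, hφ⟩) f
  exact Module.Finite.of_injective Φ hinj

end sep

end Fermat.Agent.EichlerInt
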