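import Fermat.Agent.S22.Prim

set_option autoImplicit false

open UpperHalfPlane Complex Filter Topology Function
open scoped Manifold MatrixGroups

noncomputable section

namespace Fermat.Agent.EichlerInt

/-- evaluation at a point -/
def ev (z : ℍ) : cuspLike →ₗ[ℂ] ℂ where
  toFun f := (f : ℍ → ℂ) z
  map_add' _ _ := rfl
  map_smul' _ _ := rfl

@[simp] lemma ev_apply (z : ℍ) (f : cuspLike) : ev z f = (f : ℍ → ℂ) z := rfl

/-- Eichler integral `∫_{i∞}^z f(w) (u₀ w + u₁)^n dw` -/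
def E : (n : ℕ) → (u : Fin 2 → ℂ) → (z : ℍ) → cuspLike →ₗ[ℂ] ℂ
  | 0, _, z => (ev z) ∘ₗ prim
  | n + 1, u, z => (u 0 * z + u 1) ^ (n + 1) • ((ev z) ∘ₗ prim) -
      ((n + 1 : ℂ) * u 0) • ((E n u z) ∘ₗ prim)

lemma E_zero (u : Fin 2 → ℂ) (z : ℍ) (f : cuspLike) : E 0 u z f = (prim f : ℍ → ℂ) z := rfl

lemma E_succ (n : ℕ) (u : Fin 2 → ℂ) (z : ℍ) (f : cuspLike) :
    E (n + 1) u z f = (u 0 * z + u 1) ^ (n + 1) * (prim f : ℍ → ℂ) z -
      ((n + 1 : ℂ) * u 0) * E n u z (prim f) := rfl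

lemma isPrim_E (n : ℕ) (u : Fin 2 → ℂ) (f : cuspLike) :
    IsPrim (fun τ => (u 0 * τ + u 1) ^ n * (f : ℍ → ℂ) τ) (fun τ => E n u τ f) := by
  induction n generalizing f with
  | zero =>
    simp only [pow_zero, one_mul]
    exact isPrim_prim f
  | succ n ih =>
    intro τ
    have h1 := isPrim_prim f τ
    have h2 := ih (prim f) τ
    have h3 : HasDerivAt (fun z : ℂ => (u 0 * z + u 1) ^ (n + 1))
        ((n + 1 : ℂ) * (u 0 * τ + u 1) ^ n * u 0) (τ : ℂ) := by
      have := (((hasDerivAt_id (τ : ℂ)).const_mul (u 0)).add_const (u 1)).pow (n + 1)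
      simp only [id_eq, mul_one, Nat.cast_add, Nat.cast_one, add_tsub_cancel_right] at this
      exact this
    have h4 := (h3.mul h1).sub (h2.const_mul ((n + 1 : ℂ) * u 0))
    have h5 : ((fun τ => E (n + 1) u τ f) ∘ ofComplex) =ᶠ[𝓝 (τ : ℂ)]
        (fun z : ℂ => (u 0 * z + u 1) ^ (n + 1) * ((prim f : ℍ → ℂ) ∘ ofComplex) z -
          ((n + 1 : ℂ) * u 0) * ((fun τ => E n u τ (prim f)) ∘ ofComplex) z) := by
      filter_upwards [isOpen_upperHalfPlaneSet.mem_nhds τ.im_pos] with z hz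
      simp only [comp_apply, E_succ]
      rw [ofComplex_apply_of_im_pos hz]
    refine (h4.congr_of_eventuallyEq h5).congr_deriv ?_
    simp only [comp_apply, ofComplex_apply]
    ring

lemma rayZero_E (n : ℕ) (u : Fin 2 → ℂ) (f : cuspLike) : RayZero (fun τ => E n u τ f) := by
  induction n generalizing f with
  | zero => exact (prim f).2.rayZero
  | succ n ih =>
    have h1 := (prim f).2.rayZero_pow_mul (u 0) (u 1) (n + 1)
    exact h1.sub ((ih (prim f)).const_mul _)

lemma E_smul_left (n : ℕ) (c : ℂ) (u : Fin 2 → ℂ) (z : ℍ) (f : cuspLike) :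
    E n (c • u) z f = c ^ n * E n u z f := by
  induction n generalizing f with
  | zero => simp [E_zero]
  | succ n ih =>
    rw [E_succ, E_succ, ih]
    simp only [Pi.smul_apply, smul_eq_mul]
    rw [show c * u 0 * (z : ℂ) + c * u 1 = c * (u 0 * z + u 1) by ring, mul_pow]
    ring

/-- the value at `u = (1, -z)` -/
lemma E_one_neg (n : ℕ) (z : ℍ) (f : cuspLike) :
    E n ![1, -(z : ℂ)] z f = (-1) ^ n * (n.factorial : ℂ) * ((prim ^ (n + 1)) f : ℍ → ℂ) z := by
  induction n generalizing f with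
  | zero => simp [E_zero]
  | succ n ih =>
    rw [E_succ, ih]
    simp only [Matrix.cons_val_zero, Matrix.cons_val_one, mul_one, one_mul, add_neg_cancel]
    rw [zero_pow (Nat.succ_ne_zero n), zero_mul, zero_sub, Nat.factorial_succ]
    have : (prim ^ (n + 1 + 1)) f = (prim ^ (n + 1)) (prim f) := by
      rw [pow_succ]; rfl
    rw [this]
    push_cast
    ring

/-- polynomial version of `E` -/
def Epoly : (n : ℕ) → (z : ℍ) → cuspLike → MvPolynomial (Fin 2) ℂ
  | 0, z, f => MvPolynomial.C ((prim f : ℍ → ℂ) z)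
  | n + 1, z, f => (MvPolynomial.X 0 * MvPolynomial.C (z : ℂ) + MvPolynomial.X 1) ^ (n + 1) *
      MvPolynomial.C ((prim f : ℍ → ℂ) z) -
      MvPolynomial.C (n + 1 : ℂ) * MvPolynomial.X 0 * Epoly n z (prim f)

lemma eval_Epoly (n : ℕ) (u : Fin 2 → ℂ) (z : ℍ) (f : cuspLike) :
    MvPolynomial.eval u (Epoly n z f) = E n u z f := by
  induction n generalizing f with
  | zero => simp [Epoly, E_zero]
  | succ n ih =>
    rw [E_succ]
    simp [Epoly, ih]

/-- integrality: as `u` ranges over `ℤ²`, the functionals `E n u z` span a finitely generated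
`ℤ`-module. -/
lemma exists_fg_E (n : ℕ) (z : ℍ) : ∃ M : Submodule ℤ (cuspLike →ₗ[ℂ] ℂ), M.FG ∧
    ∀ u : Fin 2 → ℤ, E n (fun i => (u i : ℂ)) z ∈ M := by
  induction n with
  | zero =>
    refine ⟨Submodule.span ℤ {(ev z) ∘ₗ prim}, Submodule.fg_span (Set.finite_singleton _), ?_⟩
    intro u
    exact Submodule.subset_span rfl
  | succ n ih =>
    obtain ⟨M, hM, hMu⟩ := ih
    -- composition with `prim`
    let L : (cuspLike →ₗ[ℂ] ℂ) →ₗ[ℤ] (cuspLike →ₗ[ℂ] ℂ) :=
      { toFun := fun φ => φ ∘ₗ prim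
        map_add' := fun φ ψ => LinearMap.add_comp _ _ _
        map_smul' := fun c φ => by ext; simp }
    refine ⟨Submodule.span ℤ ((fun i : ℕ => ((z : ℂ) ^ i) • ((ev z) ∘ₗ prim)) ''
      (Finset.range (n + 2) : Set ℕ)) ⊔ M.map L, ?_, ?_⟩
    · refine Submodule.FG.sup (Submodule.fg_span ?_) (hM.map L)
      exact (Finset.finite_toSet _).image _
    · intro u
      have h1 : E (n + 1) (fun i => (u i : ℂ)) z =
          (∑ i ∈ Finset.range (n + 2), ((u 0) ^ i * (u 1) ^ (n + 1 - i) * ((n + 1).choose i : ℤ)) •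
            (((z : ℂ) ^ i) • ((ev z) ∘ₗ prim))) -
          ((n + 1 : ℤ) * u 0) • L (E n (fun i => (u i : ℂ)) z) := by
        ext f
        rw [E_succ, LinearMap.sub_apply, LinearMap.sum_apply, add_pow, Finset.sum_mul]
        congr 1
        · refine Finset.sum_congr rfl (fun i _ => ?_)
          simp only [LinearMap.smul_apply, LinearMap.comp_apply, ev_apply, smul_eq_mul,
            zsmul_eq_mul]
          push_cast
          ring
        · simp only [LinearMap.smul_apply, zsmul_eq_mul]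
          push_cast
          rfl
      rw [h1]
      refine Submodule.sub_mem _ (Submodule.mem_sup_left (Submodule.sum_mem _ (fun i hi => ?_)))
        (Submodule.mem_sup_right (Submodule.smul_mem _ _ (Submodule.mem_map_of_mem (hMu u))))
      exact Submodule.smul_mem _ _ (Submodule.subset_span ⟨i, by simpa using hi, rfl⟩)

end Fermat.Agent.EichlerInt
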