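import Fermat.Agent.S22.Slash

set_option autoImplicit false

open UpperHalfPlane Complex Filter Topology Function Matrix.SpecialLinearGroup
open scoped Manifold MatrixGroups ModularForm

noncomputable section

namespace Fermat.Agent.EichlerInt

lemma isCuspLike_slash_upper (k : ℤ) {f : ℍ → ℂ} (hf : IsCuspLike f) (g : GL (Fin 2) ℝ)
    (B : Matrix (Fin 2) (Fin 2) ℤ) (hB : g.val = B.map (Int.cast : ℤ → ℝ))
    (h10 : B 1 0 = 0) (h00 : 0 < B 0 0) (h11 : 0 < B 1 1) : IsCuspLike (f ∣[k] g) := by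
  have e00 : g 0 0 = (B 0 0 : ℝ) := by rw [hB]; rfl
  have e01 : g 0 1 = (B 0 1 : ℝ) := by rw [hB]; rfl
  have e10 : g 1 0 = 0 := by rw [hB, Matrix.map_apply, h10]; simp
  have e11 : g 1 1 = (B 1 1 : ℝ) := by rw [hB]; rfl
  have hdet : 0 < g.det.val := by
    have : g.det.val = (B 0 0 : ℝ) * (B 1 1 : ℝ) := by
      rw [Matrix.GeneralLinearGroup.val_det_apply, Matrix.det_fin_two, e00, e01, e10, e11]
      ring
    rw [this]
    have h1 : (0 : ℝ) < B 0 0 := by exact_mod_cast h00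
    have h2 : (0 : ℝ) < B 1 1 := by exact_mod_cast h11
    positivity
  refine ⟨hf.hol.slash k g, hf.zero.slash k e10, ?_⟩
  obtain ⟨h, hpos, per⟩ := hf.per
  obtain ⟨a, ha⟩ := Int.eq_ofNat_of_zero_le h00.le
  obtain ⟨d, hd⟩ := Int.eq_ofNat_of_zero_le h11.le
  have hdpos : 0 < d := by
    rw [hd] at h11; simpa using h11
  have hapos : 0 < a := by
    rw [ha] at h00; simpa using h00
  refine ⟨h * d, Nat.mul_pos hpos hdpos, ?_⟩
  have key : Function.Periodic ((f ∣[k] g) ∘ ofComplex) (((h * d : ℕ) : ℝ) : ℂ) := by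
    refine periodic_comp_ofComplex_of_vadd (fun τ => ?_)
    have h1 : denom g ((((h * d : ℕ) : ℝ) +ᵥ τ : ℍ) : ℂ) = denom g τ := by
      simp [denom, e10]
    have h2 : f (g • (((h * d : ℕ) : ℝ) +ᵥ τ)) = f (g • τ) := by
      have h3 := per.nat_mul a ((g • τ : ℍ) : ℂ)
      simp only [comp_apply, ofComplex_apply] at h3
      rw [← h3]
      congr 1
      ext
      have h4 : ((g • (((h * d : ℕ) : ℝ) +ᵥ τ) : ℍ) : ℂ) = ((g • τ : ℍ) : ℂ) + a * h := by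
        rw [coe_smul_of_det_pos hdet, coe_smul_of_det_pos hdet, h1]
        have hdn : denom g τ = (d : ℂ) := by
          simp [denom, e10, e11, hd]
        have hdne : (d : ℂ) ≠ 0 := by exact_mod_cast hdpos.ne'
        rw [hdn]
        simp only [num, e00, e01, coe_vadd, ha]
        push_cast
        field_simp
        ring
      have h5 : 0 < (((g • τ : ℍ) : ℂ) + a * h).im := by
        have := (g • τ).im_pos
        simpa using this
      rw [ofComplex_apply_of_im_pos h5]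
      exact h4
    rw [ModularForm.slash_apply, ModularForm.slash_apply, h1, h2]
  simpa using key

/-- Hermite normal form -/
lemma exists_upper (M : Matrix (Fin 2) (Fin 2) ℤ) (hM : 0 < M.det) :
    ∃ (δ : SL(2, ℤ)) (B : Matrix (Fin 2) (Fin 2) ℤ), M = δ.1 * B ∧ B 1 0 = 0 ∧ 0 < B 0 0 ∧
      0 < B 1 1 := by
  set g : ℤ := ((Int.gcd (M 0 0) (M 1 0) : ℕ) : ℤ) with hg
  have hgpos : 0 < g := by
    rw [hg]
    have : 0 < Int.gcd (M 0 0) (M 1 0) := by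
      rw [Int.gcd_pos_iff]
      by_contra h
      push Not at h
      rw [Matrix.det_fin_two, h.1, h.2] at hM
      simp at hM
    exact_mod_cast this
  obtain ⟨x, hx⟩ : g ∣ M 0 0 := Int.gcd_dvd_left _ _
  obtain ⟨y, hy⟩ : g ∣ M 1 0 := Int.gcd_dvd_right _ _
  have hcop : IsCoprime x y := by
    refine ⟨Int.gcdA (M 0 0) (M 1 0), Int.gcdB (M 0 0) (M 1 0), ?_⟩
    have h1 := Int.gcd_eq_gcd_ab (M 0 0) (M 1 0)
    rw [← hg] at h1
    apply mul_left_cancel₀ hgpos.ne'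
    rw [mul_one]
    linear_combination (-1 : ℤ) * h1 - Int.gcdA (M 0 0) (M 1 0) * hx -
      Int.gcdB (M 0 0) (M 1 0) * hy
  obtain ⟨δ, h0, h1⟩ := hcop.exists_SL2_col 0
  have hdet := δ.det_coe
  have hdet2 : δ 0 0 * δ 1 1 - δ 0 1 * δ 1 0 = 1 := by
    rw [Matrix.det_fin_two] at hdet; exact hdet
  have hinv : δ.1 * (δ⁻¹ : SL(2, ℤ)).1 = 1 := by
    rw [← Matrix.SpecialLinearGroup.coe_mul, mul_inv_cancel, Matrix.SpecialLinearGroup.coe_one]
  have e00 : (δ⁻¹ : SL(2, ℤ)).1 0 0 = δ 1 1 := by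
    rw [Matrix.SpecialLinearGroup.SL2_inv_expl]; rfl
  have e01 : (δ⁻¹ : SL(2, ℤ)).1 0 1 = - δ 0 1 := by
    rw [Matrix.SpecialLinearGroup.SL2_inv_expl]; rfl
  have e10 : (δ⁻¹ : SL(2, ℤ)).1 1 0 = - δ 1 0 := by
    rw [Matrix.SpecialLinearGroup.SL2_inv_expl]; rfl
  have e11 : (δ⁻¹ : SL(2, ℤ)).1 1 1 = δ 0 0 := by
    rw [Matrix.SpecialLinearGroup.SL2_inv_expl]; rfl
  have h3 : ((δ⁻¹ : SL(2, ℤ)).1 * M) 1 0 = 0 := by
    rw [Matrix.mul_apply, Fin.sum_univ_two, e10, e11, hx, hy, ← h0, ← h1]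
    ring
  have h4 : ((δ⁻¹ : SL(2, ℤ)).1 * M) 0 0 = g := by
    rw [Matrix.mul_apply, Fin.sum_univ_two, e00, e01, hx, hy, ← h0, ← h1]
    linear_combination g * hdet2
  have h5 : 0 < ((δ⁻¹ : SL(2, ℤ)).1 * M) 1 1 := by
    have h2 : ((δ⁻¹ : SL(2, ℤ)).1 * M).det = M.det := by
      rw [Matrix.det_mul, (δ⁻¹ : SL(2, ℤ)).2, one_mul]
    rw [Matrix.det_fin_two, h3, h4, mul_zero, sub_zero] at h2
    rw [← h2] at hM
    exact (mul_pos_iff_of_pos_left hgpos).mp hM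
  refine ⟨δ, (δ⁻¹ : SL(2, ℤ)).1 * M, ?_, h3, by rw [h4]; exact hgpos, h5⟩
  rw [← Matrix.mul_assoc, hinv, Matrix.one_mul]

/-- functions all of whose `SL(2,ℤ)`-slashes are cusp-like -/
def Good (k : ℤ) : Submodule ℂ (ℍ → ℂ) where
  carrier := {g | ∀ δ : SL(2, ℤ), IsCuspLike (g ∣[k] δ)}
  add_mem' := fun ha hb δ => by
    rw [SlashAction.add_slash]
    exact (ha δ).add (hb δ)
  zero_mem' := fun δ => by
    rw [SlashAction.zero_slash]
    exact isCuspLike_zero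
  smul_mem' := fun c f hf δ => by
    rw [ModularForm.SL_smul_slash]
    exact (hf δ).smul c

lemma mem_Good {k : ℤ} {g : ℍ → ℂ} : g ∈ Good k ↔ ∀ δ : SL(2, ℤ), IsCuspLike (g ∣[k] δ) := Iff.rfl

/-- slash by `δ ∈ SL(2,ℤ)`. -/
def sl (k : ℤ) (δ : SL(2, ℤ)) : Good k →ₗ[ℂ] cuspLike where
  toFun f := ⟨(f : ℍ → ℂ) ∣[k] δ, f.2 δ⟩
  map_add' f g := Subtype.ext (SlashAction.add_slash _ _ _ _)
  map_smul' c f := Subtype.ext (ModularForm.SL_smul_slash _ _ _ _)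

@[simp] lemma coe_sl (k : ℤ) (δ : SL(2, ℤ)) (f : Good k) :
    (sl k δ f : ℍ → ℂ) = (f : ℍ → ℂ) ∣[k] δ := rfl

/-- matrix entries of `δ` as reals. -/
def slR (δ : SL(2, ℤ)) : Matrix (Fin 2) (Fin 2) ℝ := (mapGL ℝ δ : GL (Fin 2) ℝ).val

lemma slR_mul (δ ε : SL(2, ℤ)) : slR (δ * ε) = slR δ * slR ε := by
  simp [slR, map_mul]

lemma slR_one : slR 1 = 1 := by simp [slR]

lemma slR_eq (δ : SL(2, ℤ)) : slR δ = δ.1.map (Int.cast : ℤ → ℝ) := by
  ext i j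
  simp [slR]

lemma det_mapGL_val (δ : SL(2, ℤ)) : (mapGL ℝ δ : GL (Fin 2) ℝ).det.val = 1 := by
  simp

variable (n : ℕ)

/-- period functional: `∫_{ε∞}^{∞}`-type periods of `f|δ`. -/
def PerG (u : Fin 2 → ℂ) (ε δ : SL(2, ℤ)) : Good (n + 2) →ₗ[ℂ] ℂ :=
  E n u (ε • UpperHalfPlane.I) ∘ₗ sl (n + 2) δ -
    E n (vm u (slR ε)) UpperHalfPlane.I ∘ₗ sl (n + 2) (δ * ε)

lemma PerG_apply (u : Fin 2 → ℂ) (ε δ : SL(2, ℤ)) (f : Good (n + 2)) :
    PerG n u ε δ f = E n u (ε • UpperHalfPlane.I) (sl (n + 2) δ f) -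
    E n (vm u (slR ε)) UpperHalfPlane.I (sl (n + 2) (δ * ε) f) := rfl

/-- independence of the base point -/
lemma PerG_eq (u : Fin 2 → ℂ) (ε δ : SL(2, ℤ)) (f : Good (n + 2)) (τ : ℍ) :
    E n u (ε • τ) (sl (n + 2) δ f) - E n (vm u (slR ε)) τ (sl (n + 2) (δ * ε) f) =
      PerG n u ε δ f := by
  have hdet : 0 < (mapGL ℝ ε : GL (Fin 2) ℝ).det.val := by rw [det_mapGL_val]; exact one_pos
  have h1 := isPrim_E_smul n u (mapGL ℝ ε) hdet (sl (n + 2) δ f) (sl (n + 2) (δ * ε) f) (by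
    rw [coe_sl, coe_sl, SlashAction.slash_mul]
    rfl)
  have h2 := isPrim_E n (vm u (slR ε)) (sl (n + 2) (δ * ε) f)
  obtain ⟨c, hc⟩ := eq_add_const_of_isPrim h1 h2
  have h3 := hc τ
  have h4 := hc UpperHalfPlane.I
  simp only [det_mapGL_val, Complex.ofReal_one, one_pow, one_mul] at h3 h4
  rw [PerG_apply]
  have e1 : ∀ z : ℍ, (mapGL ℝ ε : GL (Fin 2) ℝ) • z = ε • z := fun z => rfl
  rw [e1] at h3 h4
  rw [h3, h4]
  ring

lemma PerG_mul (u : Fin 2 → ℂ) (ε ε' δ : SL(2, ℤ)) :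
    PerG n u (ε * ε') δ = PerG n u ε δ + PerG n (vm u (slR ε)) ε' (δ * ε) := by
  ext f
  rw [LinearMap.add_apply, ← PerG_eq n u ε δ f (ε' • UpperHalfPlane.I), PerG_apply, PerG_apply,
    slR_mul, vm_vm, mul_smul, mul_assoc]
  ring

lemma PerG_one (u : Fin 2 → ℂ) (δ : SL(2, ℤ)) : PerG n u 1 δ = 0 := by
  ext f
  rw [PerG_apply, slR_one, vm_one, one_smul, mul_one, sub_self, LinearMap.zero_apply]

lemma PerG_inv (u : Fin 2 → ℂ) (ε δ : SL(2, ℤ)) :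
    PerG n u ε⁻¹ δ = - PerG n (vm u (slR ε⁻¹)) ε (δ * ε⁻¹) := by
  have h := PerG_mul n u ε⁻¹ ε δ
  rw [inv_mul_cancel, PerG_one] at h
  exact eq_neg_of_add_eq_zero_left h.symm

/-- all periods are differences of periods from the base coset -/
lemma PerG_eq_sub (u : Fin 2 → ℂ) (ε δ : SL(2, ℤ)) :
    PerG n u ε δ = PerG n (vm u (slR δ⁻¹)) (δ * ε) 1 - PerG n (vm u (slR δ⁻¹)) δ 1 := by
  rw [PerG_mul, vm_vm, ← slR_mul, inv_mul_cancel, slR_one, vm_one, one_mul]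
  abel

end Fermat.Agent.EichlerInt
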