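import Fermat.Agent.S22.Lattice

set_option autoImplicit false

open UpperHalfPlane Complex Filter Topology Function Matrix.SpecialLinearGroup CongruenceSubgroup
open scoped Manifold MatrixGroups ModularForm

noncomputable section

namespace Fermat.Agent.EichlerInt

section upper

variable {k : ℤ}

/-- decomposition `α δ = δ' β` -/
lemma exists_decomp (α : GL (Fin 2) ℝ) (A : Matrix (Fin 2) (Fin 2) ℤ)
    (hA : α.val = A.map (Int.cast : ℤ → ℝ)) (hdet : 0 < A.det) (δ : SL(2, ℤ)) :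
    ∃ (δ' : SL(2, ℤ)) (β : GL (Fin 2) ℝ) (B : Matrix (Fin 2) (Fin 2) ℤ),
      β.val = B.map (Int.cast : ℤ → ℝ) ∧ B 1 0 = 0 ∧ 0 < B 0 0 ∧ 0 < B 1 1 ∧
      α * mapGL ℝ δ = mapGL ℝ δ' * β := by
  obtain ⟨δ', B, hM, h10, h00, h11⟩ := exists_upper (A * δ.1) (by
    rw [Matrix.det_mul, δ.2, mul_one]; exact hdet)
  refine ⟨δ', (mapGL ℝ δ')⁻¹ * (α * mapGL ℝ δ), B, ?_, h10, h00, h11, by group⟩
  have h1 : (α * mapGL ℝ δ : GL (Fin 2) ℝ).val = slR δ' * B.map (Int.cast : ℤ → ℝ) := by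
    rw [Units.val_mul, hA, slR_eq]
    have e1 : (mapGL ℝ δ : GL (Fin 2) ℝ).val = δ.1.map (Int.cast : ℤ → ℝ) := slR_eq δ
    rw [e1]
    have e2 := congrArg (fun M : Matrix (Fin 2) (Fin 2) ℤ => M.map (Int.castRingHom ℝ)) hM
    simp only [Matrix.map_mul] at e2
    exact e2
  rw [Units.val_mul, h1, ← Matrix.mul_assoc]
  have h2 : ((mapGL ℝ δ' : GL (Fin 2) ℝ)⁻¹).val * slR δ' = 1 := by
    have := (mapGL ℝ δ' : GL (Fin 2) ℝ).inv_mul
    exact this
  rw [h2, Matrix.one_mul]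

lemma good_slash {f : ℍ → ℂ} (hf : f ∈ Good k) (α : GL (Fin 2) ℝ) (A : Matrix (Fin 2) (Fin 2) ℤ)
    (hA : α.val = A.map (Int.cast : ℤ → ℝ)) (hdet : 0 < A.det) : f ∣[k] α ∈ Good k := by
  intro δ
  obtain ⟨δ', β, B, hB, h10, h00, h11, h⟩ := exists_decomp α A hA hdet δ
  have h1 : (f ∣[k] α) ∣[k] δ = (f ∣[k] δ') ∣[k] β := by
    rw [ModularForm.SL_slash, ← SlashAction.slash_mul, ModularForm.SL_slash,
      ← SlashAction.slash_mul]
    exact congrArg (fun g => f ∣[k] g) h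
  rw [h1]
  exact isCuspLike_slash_upper k (hf δ') β B hB h10 h00 h11

end upper

variable (n : ℕ)

lemma E_slash_upper (u : Fin 2 → ℂ) (α : GL (Fin 2) ℝ) (hdet : 0 < α.det.val)
    (h10 : α 1 0 = 0) (f f' : cuspLike) (hf' : (f' : ℍ → ℂ) = (f : ℍ → ℂ) ∣[(n + 2 : ℤ)] α)
    (τ : ℍ) : E n u τ f' = E n (vm u α.val.adjugate) (α • τ) f := by
  have h1 := E_vm_of_upper n (vm u α.val.adjugate) α hdet h10 f f' hf' τ
  rw [vm_vm, Matrix.adjugate_mul, vm_smul_right, vm_one, E_smul_left] at h1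
  have h2 : ((α.val.det : ℝ) : ℂ) ^ n ≠ 0 := by
    apply pow_ne_zero
    have : α.val.det ≠ 0 := ne_of_gt hdet
    exact_mod_cast this
  exact mul_left_cancel₀ h2 h1

/-- key Hecke computation -/
lemma exists_PerG_slash (α : GL (Fin 2) ℝ) (A : Matrix (Fin 2) (Fin 2) ℤ)
    (hA : α.val = A.map (Int.cast : ℤ → ℝ)) (hdet : 0 < A.det) (h10 : A 1 0 = 0)
    (u : Fin 2 → ℂ) (δ : SL(2, ℤ)) :
    ∃ δ' : SL(2, ℤ), ∀ f f' : Good (n + 2), (f' : ℍ → ℂ) = (f : ℍ → ℂ) ∣[(n + 2 : ℤ)] α →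
      PerG n u δ 1 f' = PerG n (vm u α.val.adjugate) δ' 1 f := by
  obtain ⟨δ', β, B, hB, hB10, hB00, hB11, h⟩ := exists_decomp α A hA hdet δ
  refine ⟨δ', fun f f' hf' => ?_⟩
  have hα10 : α 1 0 = 0 := by
    have : α 1 0 = (A 1 0 : ℝ) := by rw [hA]; rfl
    rw [this, h10]; simp
  have hβ10 : β 1 0 = 0 := by
    have : β 1 0 = (B 1 0 : ℝ) := by rw [hB]; rfl
    rw [this, hB10]; simp
  have hαdet : 0 < α.det.val := by
    have : α.det.val = (A.det : ℝ) := by
      rw [Matrix.GeneralLinearGroup.val_det_apply, hA]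
      exact (Int.cast_det A).symm
    rw [this]; exact_mod_cast hdet
  have hβdet : 0 < β.det.val := by
    have e1 : β.det.val = (B.det : ℝ) := by
      rw [Matrix.GeneralLinearGroup.val_det_apply, hB]
      exact (Int.cast_det B).symm
    rw [e1, Matrix.det_fin_two, hB10, mul_zero, sub_zero]
    have h1 : 0 < B 0 0 * B 1 1 := mul_pos hB00 hB11
    exact_mod_cast h1
  have e1 : (sl (n + 2) 1 f' : ℍ → ℂ) = (sl (n + 2) 1 f : ℍ → ℂ) ∣[(n + 2 : ℤ)] α := by
    rw [coe_sl, coe_sl, SlashAction.slash_one, SlashAction.slash_one, hf']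
  have e2 : (sl (n + 2) δ f' : ℍ → ℂ) = (sl (n + 2) δ' f : ℍ → ℂ) ∣[(n + 2 : ℤ)] β := by
    rw [coe_sl, coe_sl, hf', ModularForm.SL_slash, ← SlashAction.slash_mul, ModularForm.SL_slash,
      ← SlashAction.slash_mul]
    exact congrArg (fun g => (f : ℍ → ℂ) ∣[(n + 2 : ℤ)] g) h
  rw [PerG_apply, one_mul, E_slash_upper n u α hαdet hα10 _ _ e1,
    E_slash_upper n (vm u (slR δ)) β hβdet hβ10 _ _ e2, vm_vm]
  have e3 : slR δ * β.val.adjugate = α.val.adjugate * slR δ' := by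
    have h1 : α.val * slR δ = slR δ' * β.val := congrArg Units.val h
    have h2 := congrArg Matrix.adjugate h1
    rw [Matrix.adjugate_mul_distrib, Matrix.adjugate_mul_distrib] at h2
    have hd1 : slR δ * (slR δ).adjugate = 1 := by
      rw [Matrix.mul_adjugate]
      have : (slR δ).det = 1 := det_mapGL_val δ
      rw [this, one_smul]
    have hd2 : (slR δ').adjugate * slR δ' = 1 := by
      rw [Matrix.adjugate_mul]
      have : (slR δ').det = 1 := det_mapGL_val δ'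
      rw [this, one_smul]
    calc slR δ * β.val.adjugate = slR δ * (β.val.adjugate * ((slR δ').adjugate * slR δ')) := by
          rw [hd2, Matrix.mul_one]
      _ = slR δ * (β.val.adjugate * (slR δ').adjugate) * slR δ' := by
          simp only [Matrix.mul_assoc]
      _ = slR δ * ((slR δ).adjugate * α.val.adjugate) * slR δ' := by rw [h2]
      _ = (slR δ * (slR δ).adjugate) * α.val.adjugate * slR δ' := by
          simp only [Matrix.mul_assoc]
      _ = α.val.adjugate * slR δ' := by rw [hd1, Matrix.one_mul]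
  have e4 : α • (δ • UpperHalfPlane.I) = δ' • (β • UpperHalfPlane.I) := by
    have : (α * mapGL ℝ δ) • UpperHalfPlane.I = (mapGL ℝ δ' * β) • UpperHalfPlane.I := by rw [h]
    rw [mul_smul, mul_smul] at this
    exact this
  rw [e3, e4, ← vm_vm, ← PerG_eq n (vm u α.val.adjugate) δ' 1 f (β • UpperHalfPlane.I), one_mul]

section hecke

variable (N : ℕ) [NeZero N]

/-- stability for an operator which is a finite sum of slashes by integral upper triangular
matrices -/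
lemma PerLat_stable_of_sum {ι : Type*} (s : Finset ι) (α : ι → GL (Fin 2) ℝ)
    (A : ι → Matrix (Fin 2) (Fin 2) ℤ) (hA : ∀ i ∈ s, (α i).val = (A i).map (Int.cast : ℤ → ℝ))
    (hdet : ∀ i ∈ s, 0 < (A i).det) (h10 : ∀ i ∈ s, (A i) 1 0 = 0)
    (T : Module.End ℂ (CuspForm (Gamma0 N) (n + 2)))
    (hT : ∀ f, (T f : ℍ → ℂ) = ∑ i ∈ s, (f : ℍ → ℂ) ∣[(n + 2 : ℤ)] α i) :
    ∀ φ ∈ PerLat N n, φ ∘ₗ T ∈ PerLat N n := by
  intro φ hφ
  let L : (CuspForm (Gamma0 N) (n + 2) →ₗ[ℂ] ℂ) →ₗ[ℤ] (CuspForm (Gamma0 N) (n + 2) →ₗ[ℂ] ℂ) :=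
    { toFun := fun φ => φ ∘ₗ T
      map_add' := fun φ ψ => LinearMap.add_comp _ _ _
      map_smul' := fun c φ => by ext; simp }
  have hle : PerLat N n ≤ (PerLat N n).comap L := by
    refine Submodule.span_le.mpr ?_
    rintro _ ⟨u, hu, δ, rfl⟩
    show PerV N n u δ 1 ∘ₗ T ∈ PerLat N n
    classical
    choose! δ' hδ' using fun i (hi : i ∈ s) =>
      exists_PerG_slash n (α i) (A i) (hA i hi) (hdet i hi) (h10 i hi) u δ
    have h1 : PerV N n u δ 1 ∘ₗ T = ∑ i ∈ s, PerV N n (vm u (α i).val.adjugate) (δ' i) 1 := by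
      ext f
      rw [LinearMap.comp_apply, LinearMap.sum_apply, PerV, LinearMap.comp_apply]
      have h2 : toGood N (n + 2) (T f) = ∑ i ∈ s.attach,
          (⟨(f : ℍ → ℂ) ∣[(n + 2 : ℤ)] α i, good_slash (cuspForm_good f) _ _ (hA i i.2)
            (hdet i i.2)⟩ : Good (n + 2)) := by
        apply Subtype.ext
        rw [coe_toGood, hT, AddSubmonoidClass.coe_finsetSum, ← Finset.sum_attach]
      rw [h2, map_sum, ← Finset.sum_attach s]
      refine Finset.sum_congr rfl (fun i _ => ?_)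
      exact hδ' i i.2 (toGood N (n + 2) f) _ rfl
    rw [h1]
    refine Submodule.sum_mem _ (fun i hi => Submodule.subset_span ⟨_, ?_, _, rfl⟩)
    refine intVec_vm hu (M := (A i).adjugate) ?_
    rw [hA i hi]
    exact ((Int.castRingHom ℝ).map_adjugate (A i)).symm
  exact hle hφ

lemma PerLat_stable_T {p : ℕ} (hp : p.Prime) (hpN : ¬ p ∣ N) :
    ∀ φ ∈ PerLat N n, φ ∘ₗ CuspForm.heckeTLin (n + 2) hp hpN ∈ PerLat N n := by
  refine PerLat_stable_of_sum n N (Finset.range (p + 1))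
    (fun j => if j < p then ModularForm.heckeMatrix p j else ModularForm.heckeDiagMatrix p)
    (fun j => if j < p then !![1, (j : ℤ); 0, (p : ℤ)] else !![(p : ℤ), 0; 0, 1]) ?_ ?_ ?_ _ ?_
  · intro j _
    by_cases h : j < p
    · simp only [h, if_true]
      rw [ModularForm.val_heckeMatrix hp.ne_zero]
      ext a b
      fin_cases a <;> fin_cases b <;> simp
    · simp only [h, if_false]
      rw [ModularForm.val_heckeDiagMatrix hp.ne_zero]
      ext a b
      fin_cases a <;> fin_cases b <;> simp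
  · intro j _
    have := hp.pos
    by_cases h : j < p <;> simp [h, this]
  · intro j _
    by_cases h : j < p <;> simp [h]
  · intro f
    rw [CuspForm.coe_heckeTLin_apply, ModularForm.heckeT_def, Finset.sum_range_succ]
    simp only [lt_irrefl, if_false]
    congr 1
    refine Finset.sum_congr rfl (fun j hj => ?_)
    rw [if_pos (Finset.mem_range.mp hj)]

lemma PerLat_stable_U {p : ℕ} (hp : p.Prime) (hpN : p ∣ N) :
    ∀ φ ∈ PerLat N n, φ ∘ₗ CuspForm.heckeULin (n + 2) hpN ∈ PerLat N n := by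
  refine PerLat_stable_of_sum n N (Finset.range p)
    (fun j => ModularForm.heckeMatrix p j)
    (fun j => !![1, (j : ℤ); 0, (p : ℤ)]) ?_ ?_ ?_ _ ?_
  · intro j _
    rw [ModularForm.val_heckeMatrix hp.ne_zero]
    ext a b
    fin_cases a <;> fin_cases b <;> simp
  · intro j _
    have := hp.pos
    simp [this]
  · intro j _
    simp
  · intro f
    rw [CuspForm.coe_heckeULin_apply, ModularForm.heckeU_def]

lemma PerLat_stable (S : Set ℕ) {t : Module.End ℂ (CuspForm (Gamma0 N) (n + 2))}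
    (ht : t ∈ CuspForm.heckeAlgebra N (n + 2) S) :
    ∀ φ ∈ PerLat N n, φ ∘ₗ t ∈ PerLat N n := by
  induction ht using Algebra.adjoin_induction with
  | mem x hx =>
    rcases hx with ⟨ℓ, hℓ, hℓN, -, rfl⟩ | ⟨q, hqN, hq, -, rfl⟩
    · exact PerLat_stable_T n N hℓ hℓN
    · exact PerLat_stable_U n N hq hqN
  | algebraMap r =>
    intro φ hφ
    have : φ ∘ₗ (algebraMap ℤ (Module.End ℂ (CuspForm (Gamma0 N) (n + 2))) r) = r • φ := by
      ext f
      simp
    rw [this]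
    exact Submodule.smul_mem _ _ hφ
  | add x y _ _ hx hy =>
    intro φ hφ
    rw [LinearMap.comp_add]
    exact add_mem (hx φ hφ) (hy φ hφ)
  | mul x y _ _ hx hy =>
    intro φ hφ
    have : φ ∘ₗ (x * y) = (φ ∘ₗ x) ∘ₗ y := rfl
    rw [this]
    exact hy _ (hx φ hφ)

end hecke

end Fermat.Agent.EichlerInt
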