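import Fermat.Agent.S22.Good
import Fermat.Prelude.Thm_ModularForm_sturm_bound_Gamma0
import Fermat.Prelude.Def_CuspForm_HeckeAlgebra

set_option autoImplicit false

open UpperHalfPlane Complex Filter Topology Function Matrix.SpecialLinearGroup CongruenceSubgroup
open scoped Manifold MatrixGroups ModularForm

noncomputable section

namespace Fermat.Agent.EichlerInt

section cusp

variable {N : ℕ} [NeZero N] {k : ℤ}

lemma cuspForm_good (f : CuspForm (Gamma0 N) k) : (f : ℍ → ℂ) ∈ Good k := by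
  intro δ
  refine ⟨(f.holo').slash k _, ?_, N, Nat.pos_of_ne_zero (NeZero.ne N), ?_⟩
  · have hc : IsCusp (mapGL ℝ δ • (OnePoint.infty : OnePoint ℝ)) 𝒮ℒ :=
      isCusp_SL2Z_iff'.mpr ⟨δ, rfl⟩
    have hc' : IsCusp (mapGL ℝ δ • (OnePoint.infty : OnePoint ℝ))
        (Gamma0 N : Subgroup (GL (Fin 2) ℝ)) :=
      (Subgroup.IsArithmetic.isCusp_iff_isCusp_SL2Z _).mpr hc
    exact (OnePoint.isZeroAt_iff_forall_SL2Z hc).mp (f.zero_at_cusps' hc') δ rfl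
  · have : Function.Periodic (((f : ℍ → ℂ) ∣[k] δ) ∘ ofComplex) ((N : ℝ) : ℂ) := by
      refine periodic_comp_ofComplex_of_vadd (fun τ => ?_)
      have h1 : ((N : ℝ) +ᵥ τ : ℍ) = (ModularGroup.T ^ N : SL(2, ℤ)) • τ := by
        rw [← zpow_natCast, UpperHalfPlane.modular_T_zpow_smul]
        simp
      have hmem : δ * ModularGroup.T ^ N * δ⁻¹ ∈ Gamma0 N := by
        have h2 : ModularGroup.T ^ N ∈ CongruenceSubgroup.Gamma N := by
          have := ModularGroup_T_pow_mem_Gamma (N : ℤ) (N : ℤ) dvd_rfl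
          simpa using this
        have h3 := (Gamma_normal (N := N)).conj_mem _ h2 δ
        rw [Gamma0_mem]
        rw [Gamma_mem] at h3
        exact h3.2.2.1
      have h4 : (f : ℍ → ℂ) ∣[k] (δ * ModularGroup.T ^ N * δ⁻¹) = (f : ℍ → ℂ) :=
        f.slash_action_eq' _ (Subgroup.mem_map_of_mem (mapGL ℝ) hmem)
      have h5 : ((f : ℍ → ℂ) ∣[k] δ) ∣[k] (ModularGroup.T ^ N) = (f : ℍ → ℂ) ∣[k] δ := by
        rw [← SlashAction.slash_mul]
        conv_rhs => rw [← h4, ← SlashAction.slash_mul]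
        congr 1
        group
      have h7 := congrFun h5 τ
      have h6 : denom (ModularGroup.T ^ N : SL(2, ℤ)) τ = 1 := by
        rw [ModularGroup.denom_apply, ← zpow_natCast, ModularGroup.coe_T_zpow]
        simp
      rw [ModularForm.SL_slash_apply, h6, one_zpow, mul_one, ← h1] at h7
      exact h7
    simpa using this

/-- cusp forms as good functions -/
def toGood (N : ℕ) [NeZero N] (k : ℤ) : CuspForm (Gamma0 N) k →ₗ[ℂ] Good k where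
  toFun f := ⟨f, cuspForm_good f⟩
  map_add' _ _ := rfl
  map_smul' _ _ := rfl

@[simp] lemma coe_toGood (f : CuspForm (Gamma0 N) k) : (toGood N k f : ℍ → ℂ) = f := rfl

lemma sl_toGood_mul {γ : SL(2, ℤ)} (hγ : γ ∈ Gamma0 N) (δ : SL(2, ℤ)) :
    sl k (γ * δ) ∘ₗ toGood N k = sl k δ ∘ₗ toGood N k := by
  refine LinearMap.ext fun f => Subtype.ext ?_
  have h4 : (f : ℍ → ℂ) ∣[k] γ = (f : ℍ → ℂ) :=
    f.slash_action_eq' _ (Subgroup.mem_map_of_mem (mapGL ℝ) hγ)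
  show (f : ℍ → ℂ) ∣[k] (γ * δ) = (f : ℍ → ℂ) ∣[k] δ
  rw [SlashAction.slash_mul, h4]

/-- integral vectors -/
def IntVec : Set (Fin 2 → ℂ) := {u | ∃ v : Fin 2 → ℤ, u = fun i => (v i : ℂ)}

lemma intVec_vm {u : Fin 2 → ℂ} (hu : u ∈ IntVec) {g : Matrix (Fin 2) (Fin 2) ℝ}
    {M : Matrix (Fin 2) (Fin 2) ℤ} (hg : g = M.map (Int.cast : ℤ → ℝ)) : vm u g ∈ IntVec := by
  obtain ⟨v, rfl⟩ := hu
  refine ⟨![v 0 * M 0 0 + v 1 * M 1 0, v 0 * M 0 1 + v 1 * M 1 1], ?_⟩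
  ext i
  fin_cases i <;> simp [EichlerInt.vm, hg]

lemma intVec_vm_sl {u : Fin 2 → ℂ} (hu : u ∈ IntVec) (δ : SL(2, ℤ)) :
    EichlerInt.vm u (slR δ) ∈ IntVec := intVec_vm hu (slR_eq δ)

variable (N : ℕ) [NeZero N] (n : ℕ)

/-- periods as functionals on cusp forms -/
def PerV (u : Fin 2 → ℂ) (ε δ : SL(2, ℤ)) : CuspForm (Gamma0 N) (n + 2) →ₗ[ℂ] ℂ :=
  PerG n u ε δ ∘ₗ toGood N (n + 2)

/-- the period lattice in the dual of the space of cusp forms -/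
def PerLat : Submodule ℤ (CuspForm (Gamma0 N) (n + 2) →ₗ[ℂ] ℂ) :=
  Submodule.span ℤ {φ | ∃ u ∈ IntVec, ∃ δ : SL(2, ℤ), φ = PerV N n u δ 1}

lemma exists_fg_PerV (ε δ : SL(2, ℤ)) :
    ∃ M : Submodule ℤ (CuspForm (Gamma0 N) (n + 2) →ₗ[ℂ] ℂ), M.FG ∧
      ∀ γ ∈ Gamma0 N, ∀ u ∈ IntVec, PerV N n u ε (γ * δ) ∈ M := by
  obtain ⟨M₁, hM₁, h₁⟩ := exists_fg_E n (ε • UpperHalfPlane.I)
  obtain ⟨M₂, hM₂, h₂⟩ := exists_fg_E n UpperHalfPlane.I
  let L (s : CuspForm (Gamma0 N) (n + 2) →ₗ[ℂ] cuspLike) :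
      (cuspLike →ₗ[ℂ] ℂ) →ₗ[ℤ] (CuspForm (Gamma0 N) (n + 2) →ₗ[ℂ] ℂ) :=
    { toFun := fun φ => φ ∘ₗ s
      map_add' := fun φ ψ => LinearMap.add_comp _ _ _
      map_smul' := fun c φ => by ext; simp }
  refine ⟨M₁.map (L (sl (n + 2) δ ∘ₗ toGood N (n + 2))) ⊔
    M₂.map (L (sl (n + 2) (δ * ε) ∘ₗ toGood N (n + 2))), (hM₁.map _).sup (hM₂.map _), ?_⟩
  intro γ hγ u hu
  have hu' := intVec_vm_sl hu ε
  obtain ⟨v, rfl⟩ := hu
  obtain ⟨v', hv'⟩ := hu'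
  have h3 : PerV N n (fun i => (v i : ℂ)) ε (γ * δ) =
      L (sl (n + 2) δ ∘ₗ toGood N (n + 2)) (E n (fun i => (v i : ℂ)) (ε • UpperHalfPlane.I)) -
      L (sl (n + 2) (δ * ε) ∘ₗ toGood N (n + 2)) (E n (fun i => (v' i : ℂ)) UpperHalfPlane.I) := by
    have e1 := sl_toGood_mul (k := n + 2) hγ δ
    have e2 := sl_toGood_mul (k := n + 2) hγ (δ * ε)
    rw [← mul_assoc] at e2
    show (E n (fun i => (v i : ℂ)) (ε • UpperHalfPlane.I) ∘ₗ sl (n + 2) (γ * δ) -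
      E n (EichlerInt.vm (fun i => (v i : ℂ)) (slR ε)) UpperHalfPlane.I ∘ₗ
        sl (n + 2) (γ * δ * ε)) ∘ₗ toGood N (n + 2) =
      E n (fun i => (v i : ℂ)) (ε • UpperHalfPlane.I) ∘ₗ (sl (n + 2) δ ∘ₗ toGood N (n + 2)) -
      E n (fun i => (v' i : ℂ)) UpperHalfPlane.I ∘ₗ (sl (n + 2) (δ * ε) ∘ₗ toGood N (n + 2))
    rw [LinearMap.sub_comp, LinearMap.comp_assoc, LinearMap.comp_assoc, e1, e2, hv']
  rw [h3]
  exact Submodule.sub_mem _ (Submodule.mem_sup_left (Submodule.mem_map_of_mem (h₁ v)))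
    (Submodule.mem_sup_right (Submodule.mem_map_of_mem (h₂ v')))

instance : (Gamma0 N).FiniteIndex := (Gamma0_is_congruence N).finiteIndex

lemma exists_fg_all : ∃ M : Submodule ℤ (CuspForm (Gamma0 N) (n + 2) →ₗ[ℂ] ℂ), M.FG ∧
      ∀ ε δ : SL(2, ℤ), ∀ u ∈ IntVec, PerV N n u ε δ ∈ M := by
  classical
  choose F hF hFm using exists_fg_PerV N n
  have : Finite (SL(2, ℤ) ⧸ Gamma0 N) := Subgroup.finite_quotient_of_finiteIndex
  have : Fintype (SL(2, ℤ) ⧸ Gamma0 N) := Fintype.ofFinite _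
  let M : Submodule ℤ (CuspForm (Gamma0 N) (n + 2) →ₗ[ℂ] ℂ) :=
    ⨆ q : SL(2, ℤ) ⧸ Gamma0 N, (F ModularGroup.S (q.out)⁻¹ ⊔ F ModularGroup.T (q.out)⁻¹)
  have hM : M.FG := Submodule.fg_iSup _ (fun q => (hF _ _).sup (hF _ _))
  refine ⟨M, hM, ?_⟩
  have hdec : ∀ δ : SL(2, ℤ), ∃ q : SL(2, ℤ) ⧸ Gamma0 N, ∃ γ ∈ Gamma0 N, δ = γ * (q.out)⁻¹ := by
    intro δ
    obtain ⟨h, hh⟩ := QuotientGroup.mk_out_eq_mul (Gamma0 N) δ⁻¹
    refine ⟨(QuotientGroup.mk δ⁻¹ : SL(2, ℤ) ⧸ Gamma0 N), h, h.2, ?_⟩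
    rw [hh]
    group
  have hS : ∀ δ : SL(2, ℤ), ∀ u ∈ IntVec, PerV N n u ModularGroup.S δ ∈ M := by
    intro δ u hu
    obtain ⟨q, γ, hγ, rfl⟩ := hdec δ
    exact Submodule.mem_iSup_of_mem q (Submodule.mem_sup_left (hFm _ _ γ hγ u hu))
  have hT : ∀ δ : SL(2, ℤ), ∀ u ∈ IntVec, PerV N n u ModularGroup.T δ ∈ M := by
    intro δ u hu
    obtain ⟨q, γ, hγ, rfl⟩ := hdec δ
    exact Submodule.mem_iSup_of_mem q (Submodule.mem_sup_right (hFm _ _ γ hγ u hu))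
  intro ε
  have hε : ε ∈ Subgroup.closure ({ModularGroup.S, ModularGroup.T} : Set SL(2, ℤ)) := by
    rw [SpecialLinearGroup.SL2Z_generators]; trivial
  induction hε using Subgroup.closure_induction with
  | mem x hx =>
    rcases hx with rfl | rfl
    · exact hS
    · exact hT
  | one =>
    intro δ u _
    have : PerV N n u 1 δ = 0 := by
      rw [PerV, PerG_one, LinearMap.zero_comp]
    rw [this]
    exact zero_mem _
  | mul x y _ _ hx hy =>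
    intro δ u hu
    have : PerV N n u (x * y) δ = PerV N n u x δ + PerV N n (EichlerInt.vm u (slR x)) y (δ * x) := by
      rw [PerV, PerG_mul, LinearMap.add_comp]; rfl
    rw [this]
    exact add_mem (hx δ u hu) (hy _ _ (intVec_vm_sl hu x))
  | inv x _ hx =>
    intro δ u hu
    have : PerV N n u x⁻¹ δ = - PerV N n (EichlerInt.vm u (slR x⁻¹)) x (δ * x⁻¹) := by
      rw [PerV, PerG_inv, LinearMap.neg_comp]; rfl
    rw [this]
    exact neg_mem (hx _ _ (intVec_vm_sl hu _))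

lemma PerLat_fg : (PerLat N n).FG := by
  obtain ⟨M, hM, h⟩ := exists_fg_all N n
  have : Module.Finite ℤ M := Module.Finite.iff_fg.mpr hM
  have hle : PerLat N n ≤ M := by
    refine Submodule.span_le.mpr ?_
    rintro _ ⟨u, hu, δ, rfl⟩
    exact h _ _ _ hu
  have : IsNoetherian ℤ M := isNoetherian_of_isNoetherianRing_of_finite ℤ M
  exact Submodule.FG.of_le hM hle

end cusp

end Fermat.Agent.EichlerInt
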