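import Mathlib

set_option autoImplicit false

open UpperHalfPlane Complex Filter Topology Function
open scoped Manifold MatrixGroups

noncomputable section

namespace Fermat.Agent.EichlerInt

/-- periodic, holomorphic, vanishing at `i∞` functions on `ℍ` (some positive integral period) -/
structure IsCuspLike (g : ℍ → ℂ) : Prop where
  hol : MDiff g
  zero : IsZeroAtImInfty g
  per : ∃ h : ℕ, 0 < h ∧ Function.Periodic (g ∘ ofComplex) (h : ℂ)

/-- `F` is a primitive of `g`. -/
def IsPrim (g F : ℍ → ℂ) : Prop := ∀ τ : ℍ, HasDerivAt (F ∘ ofComplex) (g τ) (τ : ℂ)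

lemma IsCuspLike.add {f g : ℍ → ℂ} (hf : IsCuspLike f) (hg : IsCuspLike g) :
    IsCuspLike (f + g) := by
  refine ⟨hf.hol.add hg.hol, hf.zero.add hg.zero, ?_⟩
  obtain ⟨h₁, h₁pos, hp₁⟩ := hf.per
  obtain ⟨h₂, h₂pos, hp₂⟩ := hg.per
  refine ⟨h₁ * h₂, Nat.mul_pos h₁pos h₂pos, ?_⟩
  intro z
  have e1 := hp₁.nat_mul h₂ z
  have e2 := hp₂.nat_mul h₁ z
  simp only [Function.comp_apply, Pi.add_apply] at *
  have e3 : ((h₁ * h₂ : ℕ) : ℂ) = (h₂ : ℂ) * h₁ := by push_cast; ring
  have e4 : ((h₁ * h₂ : ℕ) : ℂ) = (h₁ : ℂ) * h₂ := by push_cast; ring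
  rw [← e3] at e1
  rw [← e4] at e2
  rw [e1, e2]

lemma IsCuspLike.smul {f : ℍ → ℂ} (c : ℂ) (hf : IsCuspLike f) : IsCuspLike (c • f) := by
  refine ⟨hf.hol.const_smul c, hf.zero.smul c, ?_⟩
  obtain ⟨h₁, h₁pos, hp₁⟩ := hf.per
  refine ⟨h₁, h₁pos, ?_⟩
  intro z
  have e1 := hp₁ z
  simp only [Function.comp_apply, Pi.smul_apply] at *
  rw [e1]

lemma isCuspLike_zero : IsCuspLike (0 : ℍ → ℂ) := by
  refine ⟨fun _ => mdifferentiableAt_const, Filter.zero_zeroAtFilter _, 1, one_pos, ?_⟩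
  intro z
  simp

lemma IsPrim.add {f g F G : ℍ → ℂ} (hf : IsPrim f F) (hg : IsPrim g G) :
    IsPrim (f + g) (F + G) := fun τ => (hf τ).add (hg τ)

lemma IsPrim.sub {f g F G : ℍ → ℂ} (hf : IsPrim f F) (hg : IsPrim g G) :
    IsPrim (f - g) (F - G) := fun τ => (hf τ).sub (hg τ)

lemma IsPrim.smul {f F : ℍ → ℂ} (c : ℂ) (hf : IsPrim f F) : IsPrim (c • f) (c • F) :=
  fun τ => (hf τ).const_smul c

lemma IsPrim.mdiff {f F : ℍ → ℂ} (hf : IsPrim f F) : MDiff F := fun τ =>
  UpperHalfPlane.mdifferentiableAt_iff.mpr (hf τ).differentiableAt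

/-- two functions on `ℍ` with the same derivative differ by a constant -/
lemma eq_add_const_of_isPrim {f F G : ℍ → ℂ} (hF : IsPrim f F) (hG : IsPrim f G) :
    ∃ c : ℂ, ∀ τ : ℍ, F τ = G τ + c := by
  have hopen : IsOpen {z : ℂ | 0 < z.im} := isOpen_upperHalfPlaneSet
  have hconv : Convex ℝ {z : ℂ | 0 < z.im} := convex_halfSpace_im_gt 0
  have hd : ∀ z ∈ {z : ℂ | 0 < z.im}, HasDerivAt (fun w => (F ∘ ofComplex) w - (G ∘ ofComplex) w) 0 z := by
    intro z hz
    have := (hF ⟨z, hz⟩).sub (hG ⟨z, hz⟩)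
    rw [sub_self] at this
    exact this
  refine ⟨F I - G I, fun τ => ?_⟩
  have := hconv.is_const_of_fderivWithin_eq_zero (𝕜 := ℂ)
    (f := fun w => (F ∘ ofComplex) w - (G ∘ ofComplex) w)
    (fun z hz => (hd z hz).differentiableAt.differentiableWithinAt) (fun z hz => by
      rw [fderivWithin_of_isOpen hopen hz]
      ext
      simpa using (hd z hz).deriv) (x := (τ : ℂ)) (y := ((UpperHalfPlane.I : ℍ) : ℂ)) τ.im_pos (UpperHalfPlane.I).im_pos
  simp only [Function.comp_apply, ofComplex_apply] at this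
  linear_combination this

lemma periodic_comp_ofComplex_of_vadd {g : ℍ → ℂ} {h : ℝ} (H : ∀ τ : ℍ, g (h +ᵥ τ) = g τ) :
    Function.Periodic (g ∘ ofComplex) (h : ℂ) := by
  intro w
  by_cases hw : 0 < w.im
  · have hw' : 0 < (w + h).im := by simpa using hw
    simp only [comp_apply, ofComplex_apply_of_im_pos hw', ofComplex_apply_of_im_pos hw]
    rw [← H ⟨w, hw⟩]
    congr 1
    ext
    simp [add_comm]
  · have hw1 : w.im ≤ 0 := not_lt.mp hw
    have hw' : (w + h).im ≤ 0 := by simpa using hw1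
    simp [ofComplex_apply_of_im_nonpos hw', ofComplex_apply_of_im_nonpos hw1]

lemma hasDerivAt_qParam (h : ℝ) (z : ℂ) :
    HasDerivAt (Function.Periodic.qParam h) (2 * Real.pi * Complex.I / h *
      Function.Periodic.qParam h z) z := by
  unfold Function.Periodic.qParam
  have := (((hasDerivAt_id z).const_mul (2 * Real.pi * Complex.I)).div_const (h : ℂ)).cexp
  simp only [id_eq, mul_one] at this
  exact this.congr_deriv (mul_comm _ _)

theorem exists_prim {g : ℍ → ℂ} (hg : IsCuspLike g) : ∃ F, IsCuspLike F ∧ IsPrim g F := by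
  obtain ⟨hol, zero, h, hpos, per⟩ := hg
  have hR : (0 : ℝ) < (h : ℝ) := by exact_mod_cast hpos
  have per' : Function.Periodic (g ∘ ofComplex) ((h : ℝ) : ℂ) := by simpa using per
  set φ := cuspFunction (h : ℝ) g with hφ
  have hφd : DifferentiableOn ℂ φ (Metric.ball 0 1) :=
    differentiableOn_cuspFunction_ball hR per' hol zero.isBoundedAtImInfty
  have hφ0 : φ 0 = 0 := by
    have h1 := cuspFunction_apply_zero hR
      (analyticAt_cuspFunction_zero hR per' hol zero.isBoundedAtImInfty) per'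
    rw [hφ, h1, zero.valueAtInfty_eq_zero]
  have hnhds : Metric.ball (0 : ℂ) 1 ∈ 𝓝 (0 : ℂ) := Metric.ball_mem_nhds 0 one_pos
  have hψd : DifferentiableOn ℂ (dslope φ 0) (Metric.ball 0 1) :=
    (Complex.differentiableOn_dslope hnhds).mpr hφd
  obtain ⟨Ψ, hΨ0, hΨ⟩ := (hψd.isExactOn_ball).with_val_at 0 0
  have hmem : ∀ τ : ℍ, Function.Periodic.qParam (h : ℝ) τ ∈ Metric.ball (0 : ℂ) 1 := by
    intro τ
    rw [mem_ball_zero_iff]
    exact Function.Periodic.norm_qParam_lt_one hR τ.im_pos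
  have hne : (2 * Real.pi * Complex.I : ℂ) ≠ 0 := Complex.two_pi_I_ne_zero
  have hhne : ((h : ℝ) : ℂ) ≠ 0 := by exact_mod_cast hR.ne'
  set F : ℍ → ℂ := fun τ => ((h : ℝ) / (2 * Real.pi * Complex.I) : ℂ) *
      Ψ (Function.Periodic.qParam (h : ℝ) τ) with hF
  have hprim : IsPrim g F := by
    intro τ
    have h1 : HasDerivAt (fun z : ℂ => ((h : ℝ) / (2 * Real.pi * Complex.I) : ℂ) *
      Ψ (Function.Periodic.qParam (h : ℝ) z)) (g τ) (τ : ℂ) := by
      have h2 := ((hΨ _ (hmem τ)).comp (τ : ℂ) (hasDerivAt_qParam (h : ℝ) τ)).const_mul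
        ((h : ℝ) / (2 * Real.pi * Complex.I) : ℂ)
      refine h2.congr_deriv ?_
      have hq : Function.Periodic.qParam (h : ℝ) τ ≠ 0 := Function.Periodic.qParam_ne_zero _
      have h3 := sub_smul_dslope φ 0 (Function.Periodic.qParam (h : ℝ) τ)
      rw [hφ0, sub_zero, sub_zero, smul_eq_mul, hφ, eq_cuspFunction τ hR.ne' per', ← hφ] at h3
      rw [← h3]
      field_simp
    refine h1.congr_of_eventuallyEq ?_
    filter_upwards [isOpen_upperHalfPlaneSet.mem_nhds τ.im_pos] with z hz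
    simp only [hF, comp_apply, ofComplex_apply_of_im_pos hz]
  refine ⟨F, ⟨hprim.mdiff, ?_, h, hpos, ?_⟩, hprim⟩
  · have hc : ContinuousAt Ψ 0 := (hΨ 0 (Metric.mem_ball_self one_pos)).continuousAt
    have h1 : Tendsto (fun τ : ℍ => Ψ (Function.Periodic.qParam (h : ℝ) τ)) atImInfty (𝓝 0) := by
      have := hc.tendsto.comp (qParam_tendsto_atImInfty hR)
      rwa [hΨ0] at this
    have h2 := h1.const_mul ((h : ℝ) / (2 * Real.pi * Complex.I) : ℂ)
    rw [mul_zero] at h2
    exact h2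
  · have : Function.Periodic (F ∘ ofComplex) ((h : ℝ) : ℂ) := by
      refine periodic_comp_ofComplex_of_vadd (fun τ => ?_)
      simp only [hF]
      congr 2
      simp only [Function.Periodic.qParam, coe_vadd]
      rw [mul_add, add_div, mul_div_assoc _ ((h : ℝ) : ℂ), div_self hhne, mul_one, add_comm,
        Complex.exp_add, Complex.exp_two_pi_mul_I, mul_one]
    simpa using this

lemma ofComplex_ray (x : ℝ) {t : ℝ} (ht : 0 < t) :
    ((ofComplex (x + t * Complex.I) : ℍ) : ℂ) = x + t * Complex.I := by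
  rw [ofComplex_apply_of_im_pos (by simpa using ht)]

/-- the vertical ray above `x` -/
lemma tendsto_ray_atImInfty (x : ℝ) :
    Tendsto (fun t : ℝ => (ofComplex (x + t * Complex.I) : ℍ)) atTop atImInfty := by
  refine tendsto_comap_im_ofComplex.comp ?_
  rw [tendsto_comap_iff]
  refine tendsto_id.congr (fun t => ?_)
  simp

/-- `Φ` tends to zero along each vertical ray -/
def RayZero (Φ : ℍ → ℂ) : Prop :=
  ∀ x : ℝ, Tendsto (fun t : ℝ => Φ (ofComplex (x + t * Complex.I))) atTop (𝓝 0)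

lemma RayZero.add {Φ Ψ : ℍ → ℂ} (h : RayZero Φ) (h' : RayZero Ψ) : RayZero (fun τ => Φ τ + Ψ τ) :=
  fun x => by simpa using (h x).add (h' x)

lemma RayZero.const_mul {Φ : ℍ → ℂ} (c : ℂ) (h : RayZero Φ) : RayZero (fun τ => c * Φ τ) :=
  fun x => by simpa using (h x).const_mul c

lemma RayZero.sub {Φ Ψ : ℍ → ℂ} (h : RayZero Φ) (h' : RayZero Ψ) : RayZero (fun τ => Φ τ - Ψ τ) :=
  fun x => by simpa using (h x).sub (h' x)

lemma IsCuspLike.rayZero {f : ℍ → ℂ} (hf : IsCuspLike f) : RayZero f := fun x =>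
  hf.zero.comp (tendsto_ray_atImInfty x)

/-- exponential decay beats polynomials -/
lemma IsCuspLike.rayZero_pow_mul {f : ℍ → ℂ} (hf : IsCuspLike f) (u₀ u₁ : ℂ) (n : ℕ) :
    RayZero (fun τ => (u₀ * τ + u₁) ^ n * f τ) := by
  intro x
  obtain ⟨h, hpos, per⟩ := hf.per
  have hR : (0 : ℝ) < (h : ℝ) := by exact_mod_cast hpos
  have per' : Function.Periodic (f ∘ ofComplex) ((h : ℝ) : ℂ) := by simpa using per
  have hexp := Function.Periodic.exp_decay_of_zero_at_inf hR per'
      (eventually_of_mem (preimage_mem_comap (Ioi_mem_atTop 0))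
        (fun z hz ↦ UpperHalfPlane.mdifferentiableAt_iff.mp (hf.hol ⟨z, hz⟩)))
      (hf.zero.comp tendsto_comap_im_ofComplex)
  have hray : Tendsto (fun t : ℝ => (x + t * Complex.I : ℂ)) atTop (comap Complex.im atTop) := by
    rw [tendsto_comap_iff]
    refine tendsto_id.congr (fun t => ?_)
    simp
  have h1 : (fun t : ℝ => f (ofComplex (x + t * Complex.I))) =O[atTop]
      (fun t : ℝ => Real.exp (-(2 * Real.pi / h) * t)) := by
    refine (hexp.comp_tendsto hray).congr_right (fun t => ?_)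
    simp only [comp_apply]
    congr 1
    simp
    ring
  have h2 : (fun t : ℝ => (u₀ * (ofComplex (x + t * Complex.I) : ℍ) + u₁) ^ n) =O[atTop]
      (fun t : ℝ => t ^ n) := by
    have h3 : (fun t : ℝ => (u₀ * (x + t * Complex.I) + u₁)) =O[atTop] (fun t : ℝ => t) := by
      have e : (fun t : ℝ => (u₀ * (x + t * Complex.I) + u₁)) =
        fun t : ℝ => (u₀ * Complex.I) * (t : ℂ) + (u₀ * x + u₁) := by
        funext t; ring
      rw [e]
      refine Asymptotics.IsBigO.add ?_ ?_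
      · refine Asymptotics.IsBigO.const_mul_left ?_ _
        exact Asymptotics.isBigO_of_le _ (fun t => by simp)
      · exact (Asymptotics.isLittleO_const_id_atTop _).isBigO
    refine (h3.pow n).congr' ?_ (EventuallyEq.refl _ _)
    filter_upwards [eventually_gt_atTop 0] with t ht
    rw [ofComplex_ray x ht]
  have h4 := h2.mul h1
  refine h4.trans_tendsto ?_
  have hb : 0 < 2 * Real.pi / h := by positivity
  have := Real.tendsto_pow_mul_exp_neg_atTop_nhds_zero n
  have h5 := this.comp (tendsto_id.const_mul_atTop hb)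
  have h6 := h5.const_mul (((2 * Real.pi / h) ^ n)⁻¹)
  rw [mul_zero] at h6
  refine h6.congr (fun t => ?_)
  simp only [comp_apply, id_eq]
  rw [mul_pow, ← mul_assoc, ← mul_assoc, inv_mul_cancel₀ (pow_ne_zero _ hb.ne'), one_mul, neg_mul]

lemma eq_of_isPrim_of_tendsto {f F G : ℍ → ℂ} (hF : IsPrim f F) (hG : IsPrim f G)
    (hF0 : RayZero F) (hG0 : RayZero G) : F = G := by
  obtain ⟨c, hc⟩ := eq_add_const_of_isPrim hF hG
  have h1 := hF0 0
  have h2 := (hG0 0).add_const c
  have h3 : c = 0 := by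
    have := tendsto_nhds_unique (h1.congr (fun t => hc _)) h2
    simpa using this.symm
  funext τ
  rw [hc τ, h3, add_zero]

/-- the space of cusp-like functions -/
def cuspLike : Submodule ℂ (ℍ → ℂ) where
  carrier := {g | IsCuspLike g}
  add_mem' := fun ha hb => ha.add hb
  zero_mem' := isCuspLike_zero
  smul_mem' := fun c _ ha => ha.smul c

lemma mem_cuspLike {g : ℍ → ℂ} : g ∈ cuspLike ↔ IsCuspLike g := Iff.rfl

/-- the primitive of a cusp-like function vanishing at `i∞`. -/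
def primFun (g : cuspLike) : cuspLike :=
  ⟨(exists_prim g.2).choose, (exists_prim g.2).choose_spec.1⟩

lemma isPrim_primFun (g : cuspLike) : IsPrim g (primFun g : ℍ → ℂ) :=
  (exists_prim g.2).choose_spec.2

lemma primFun_unique {g F : cuspLike} (h : IsPrim g (F : ℍ → ℂ)) : primFun g = F :=
  Subtype.ext (eq_of_isPrim_of_tendsto (isPrim_primFun g) h (primFun g).2.rayZero F.2.rayZero)

def prim : cuspLike →ₗ[ℂ] cuspLike where
  toFun := primFun
  map_add' f g := primFun_unique ((isPrim_primFun f).add (isPrim_primFun g))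
  map_smul' c f := primFun_unique ((isPrim_primFun f).smul c)

lemma isPrim_prim (g : cuspLike) : IsPrim g (prim g : ℍ → ℂ) := isPrim_primFun g

lemma prim_injective : Function.Injective prim := by
  rw [← LinearMap.ker_eq_bot, LinearMap.ker_eq_bot']
  intro g hg
  have h1 := isPrim_prim g
  rw [hg] at h1
  apply Subtype.ext
  funext τ
  have h2 := h1 τ
  have h3 : HasDerivAt (((0 : cuspLike) : ℍ → ℂ) ∘ ofComplex) 0 (τ : ℂ) := by
    have : (((0 : cuspLike) : ℍ → ℂ) ∘ ofComplex) = fun _ => (0 : ℂ) := by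
      funext z; rfl
    rw [this]
    exact hasDerivAt_const _ _
  exact h2.unique h3

end Fermat.Agent.EichlerInt
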