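import Fermat.Agent.S22.Eich

set_option autoImplicit false

open UpperHalfPlane Complex Filter Topology Function
open scoped Manifold MatrixGroups ModularForm

noncomputable section

namespace Fermat.Agent.EichlerInt

/-- row vector times matrix, with real matrix cast to `ℂ` -/
def vm (u : Fin 2 → ℂ) (g : Matrix (Fin 2) (Fin 2) ℝ) : Fin 2 → ℂ :=
  ![u 0 * g 0 0 + u 1 * g 1 0, u 0 * g 0 1 + u 1 * g 1 1]

lemma vm_vm (u : Fin 2 → ℂ) (g h : Matrix (Fin 2) (Fin 2) ℝ) : vm (vm u g) h = vm u (g * h) := by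
  ext i
  fin_cases i <;> simp [vm, Matrix.mul_apply, Fin.sum_univ_two] <;> ring

lemma vm_one (u : Fin 2 → ℂ) : vm u 1 = u := by
  ext i
  fin_cases i <;> simp [vm]

lemma vm_smul_right (u : Fin 2 → ℂ) (c : ℝ) (g : Matrix (Fin 2) (Fin 2) ℝ) :
    vm u (c • g) = (c : ℂ) • vm u g := by
  ext i
  fin_cases i <;> simp [vm] <;> ring

lemma vm_smul_left (u : Fin 2 → ℂ) (c : ℂ) (g : Matrix (Fin 2) (Fin 2) ℝ) :
    vm (c • u) g = c • vm u g := by
  ext i
  fin_cases i <;> simp [vm] <;> ring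

lemma isPrim_E_smul (n : ℕ) (u : Fin 2 → ℂ) (g : GL (Fin 2) ℝ) (hg : 0 < g.det.val)
    (f f' : cuspLike) (hf' : (f' : ℍ → ℂ) = (f : ℍ → ℂ) ∣[(n + 2 : ℤ)] g) :
    IsPrim (fun τ => ((vm u g) 0 * τ + (vm u g) 1) ^ n * (f' : ℍ → ℂ) τ)
      (fun τ => (g.det.val : ℂ) ^ n * E n u (g • τ) f) := by
  intro τ
  have hg' : 0 < g.val.det := hg
  have h1 := isPrim_E n u f (g • τ)
  have h2 := (hasStrictDerivAt_smul hg' τ).hasDerivAt
  have h3 : ((fun w => E n u w f) ∘ ofComplex) ∘ (fun z : ℂ => ((g • ofComplex z : ℍ) : ℂ)) =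
      (fun z => E n u (g • ofComplex z) f) := by
    funext z
    simp only [comp_apply, ofComplex_apply]
  have h4 : HasDerivAt ((fun w => E n u w f) ∘ ofComplex)
      ((u 0 * (g • τ : ℍ) + u 1) ^ n * (f : ℍ → ℂ) (g • τ))
      ((fun z : ℂ => ((g • ofComplex z : ℍ) : ℂ)) (τ : ℂ)) := by
    simp only [ofComplex_apply]
    exact h1
  have h5 := (h4.comp (τ : ℂ) h2).const_mul ((g.det.val : ℂ) ^ n)
  rw [h3] at h5
  refine h5.congr_deriv ?_
  have hd : denom g τ ≠ 0 := denom_ne_zero g τ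
  have hcoe : ((g • τ : ℍ) : ℂ) = num g τ / denom g τ := coe_smul_of_det_pos hg' τ
  rw [hf']
  beta_reduce
  rw [ModularForm.slash_apply, σ, if_pos hg]
  simp only [ContinuousAlgEquiv.refl_apply]
  have hv : (vm u g) 0 * (τ : ℂ) + (vm u g) 1 = denom g τ * (u 0 * (g • τ : ℍ) + u 1) := by
    rw [hcoe]
    field_simp
    simp only [vm, num, denom, Matrix.cons_val_zero, Matrix.cons_val_one]
    ring
  rw [hv, mul_pow, abs_of_pos hg]
  have h6 : ((n : ℤ) + 2 - 1) = ((n + 1 : ℕ) : ℤ) := by push_cast; ring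
  have h7 : denom g τ ^ (-((n : ℤ) + 2)) = (denom g τ ^ (n + 2))⁻¹ := by
    rw [zpow_neg]
    congr 1
  rw [h6, zpow_natCast, h7]
  have h8 : (g.val.det : ℂ) = (g.det.val : ℂ) := rfl
  rw [h8]
  field_simp
  ring

/-- upper triangular case: no integration constant -/
lemma E_vm_of_upper (n : ℕ) (u : Fin 2 → ℂ) (g : GL (Fin 2) ℝ) (hg : 0 < g.det.val)
    (hg10 : g 1 0 = 0) (f f' : cuspLike)
    (hf' : (f' : ℍ → ℂ) = (f : ℍ → ℂ) ∣[(n + 2 : ℤ)] g) (τ : ℍ) :
    E n (vm u g) τ f' = (g.det.val : ℂ) ^ n * E n u (g • τ) f := by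
  have h1 := isPrim_E_smul n u g hg f f' hf'
  have h2 := isPrim_E n (vm u g) f'
  refine congrFun (eq_of_isPrim_of_tendsto h2 h1 (rayZero_E n _ f') ?_) τ
  -- rays go to rays
  intro x
  have hdet : g.val.det = g 0 0 * g 1 1 := by
    rw [Matrix.det_fin_two]
    have : g.val 1 0 = 0 := hg10
    rw [this, mul_zero, sub_zero]
  have hdet' : 0 < g 0 0 * g 1 1 := by rw [← hdet]; exact hg
  have h11 : g 1 1 ≠ 0 := by
    intro h; rw [h, mul_zero] at hdet'; exact lt_irrefl _ hdet'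
  have hpos : 0 < g 0 0 / g 1 1 := by
    have : g 0 0 / g 1 1 = (g 0 0 * g 1 1) / (g 1 1) ^ 2 := by field_simp
    rw [this]; positivity
  have h3 := (rayZero_E n u f ((g 0 0 * x + g 0 1) / g 1 1)).comp
    (tendsto_id.const_mul_atTop hpos)
  have h4 := h3.const_mul ((g.det.val : ℂ) ^ n)
  rw [mul_zero] at h4
  refine h4.congr' ?_
  filter_upwards [eventually_gt_atTop 0] with t ht
  simp only [comp_apply, id_eq]
  congr 3
  ext
  rw [coe_smul_of_det_pos hg, ofComplex_ray _ (mul_pos hpos ht), num, denom, ofComplex_ray _ ht]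
  have h5 : (g 1 0 : ℂ) = 0 := by rw [hg10]; simp
  have h6 : (g 1 1 : ℂ) ≠ 0 := by exact_mod_cast h11
  rw [h5, zero_mul, zero_add]
  push_cast
  field_simp
  ring

end Fermat.Agent.EichlerInt
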